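import Mathlib.NumberTheory.FLT.Four
import Mathlib.NumberTheory.FLT.Three
import Fermat.Agent.S02
import Fermat.Agent.S07
import Fermat.Agent.S09
import Fermat.Agent.S45

/-!
# Modularity of the Frey curves implies Fermat's Last Theorem

Not one of the graded statements: it records what the solved statements give together.
-/

set_option autoImplicit false

namespace Fermat.Agent.FL

/-- **Ribet's theorem**, final form: the Frey curve of a Frey package is not modular. -/
theorem freyCurve_not_isModular (P : FreyPackage) : ¬ P.freyCurve.IsModular := fun hmod => by
  obtain ⟨f, hf⟩ := Fermat.Agent.S45.result P hmod (Fermat.Agent.S09.result P)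
  exact hf (Fermat.Agent.S07.result f)

/-- Modularity of the Frey curves implies Fermat's Last Theorem. -/
theorem flt_of_isModular (h : ∀ P : FreyPackage, P.freyCurve.IsModular) (n : ℕ) (hn : 3 ≤ n)
    (a b c : ℕ) (ha : 0 < a) (hb : 0 < b) (hc : 0 < c) : a ^ n + b ^ n ≠ c ^ n := by
  have key : FermatLastTheorem := by
    refine FermatLastTheorem.of_odd_primes fun p hp hodd => ?_
    rcases Nat.lt_or_ge p 5 with hlt | hge
    · have h3 : p = 3 := by
        have h2 := hp.two_le
        interval_cases p
        · exact absurd hodd (by decide)
        · rfl
        · exact absurd hp (by decide)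
      subst h3
      exact fermatLastTheoremThree
    · have h1 : FermatLastTheoremWith ℤ p := by
        intro x y z hx hy hz hxyz
        obtain ⟨P⟩ := Fermat.Agent.S02.result x y z hx hy hz p hp hge hxyz
        exact freyCurve_not_isModular P (h P)
      exact fermatLastTheoremFor_iff_int.mpr h1
  exact key n hn a b c ha.ne' hb.ne' hc.ne'

end Fermat.Agent.FL
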